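/-
S48 wall (W), BLOCK A, K-core part 2 (helper43): modular forms with character on `Γ₁(M)`,
formal properties.  Literal port of `F3/I2/FormChar.lean` (first part).
-/
import Fermat.Agent.S48.W.A.K.Defs
import Fermat.Agent.S48.W.A.Eis

set_option autoImplicit false
set_option linter.unusedSectionVars false

noncomputable section

namespace Fermat.Agent.S48WA

open UpperHalfPlane CongruenceSubgroup Filter Topology
open scoped MatrixGroups ModularForm Manifold
open Fermat.Agent.S23 Fermat.Agent.S48W Fermat.Agent.S48WA2 Fermat.Agent.F3I2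

variable {N : ℕ}

theorem IsFormChar.mul {w w' : ℤ} {χ χ' : ↥(Gamma1 N) →* ℂˣ} {f f' : ℍ → ℂ}
    (hf : IsFormChar N w χ f) (hf' : IsFormChar N w' χ' f') :
    IsFormChar N (w + w') (χ * χ') (f * f') := by
  refine ⟨hf.mdiff.mul hf'.mdiff, fun γ => ?_, fun g => ?_⟩
  · rw [ModularForm.mul_slash_SL2, hf.slash, hf'.slash]
    funext z
    simp only [Pi.mul_apply, Pi.smul_apply, smul_eq_mul, MonoidHom.mul_apply, Units.val_mul]
    ring
  · rw [ModularForm.mul_slash_SL2]
    exact (hf.bdd g).mul (hf'.bdd g)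

theorem isFormChar_one : IsFormChar N 0 1 (1 : ℍ → ℂ) := by
  refine ⟨mdifferentiable_const, fun γ => ?_, fun g => ?_⟩
  · rw [ModularForm.is_invariant_one]
    simp
  · rw [ModularForm.is_invariant_one]
    exact const_boundedAtFilter _ _

theorem IsFormChar.pow {w : ℤ} {χ : ↥(Gamma1 N) →* ℂˣ} {f : ℍ → ℂ}
    (hf : IsFormChar N w χ f) (n : ℕ) : IsFormChar N (n * w) (χ ^ n) (f ^ n) := by
  induction n with
  | zero =>
    have e : ((0 : ℕ) : ℤ) * w = 0 := by simp
    rw [e, pow_zero χ, pow_zero f]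
    exact isFormChar_one
  | succ n ih =>
    have e : ((n + 1 : ℕ) : ℤ) * w = n * w + w := by push_cast; ring
    rw [e, pow_succ χ, pow_succ f]
    exact ih.mul hf

/-- A modular form on `Γ₀(N)` is a form with trivial character. -/
theorem isFormChar_of_modularForm [NeZero N] {w : ℤ} (A : ModularForm (Gamma1 N) w) :
    IsFormChar N w 1 (⇑A) := by
  refine ⟨ModularFormClass.holo A, fun γ => ?_, fun g => ?_⟩
  · have h := SlashInvariantForm.slash_action_eqn A
      (Matrix.SpecialLinearGroup.mapGL ℝ (γ : SL(2, ℤ)))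
      (Subgroup.mem_map_of_mem _ γ.2)
    have h' : (⇑A) ∣[w] (γ : SL(2, ℤ)) = ⇑A := h
    rw [h']
    simp
  · have hc : IsCusp (Matrix.SpecialLinearGroup.mapGL ℝ g • (OnePoint.infty : OnePoint ℝ))
        ((Gamma1 N : Subgroup SL(2, ℤ)) : Subgroup (GL (Fin 2) ℝ)) := by
      rw [Subgroup.IsArithmetic.isCusp_iff_isCusp_SL2Z]
      exact isCusp_SL2Z_iff'.mpr ⟨g, rfl⟩
    have hb := ModularFormClass.bdd_at_cusps A hc
    exact hb _ rfl

/-- A form with trivial character is (the function underlying) a modular form on `Γ₀(N)`. -/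
theorem IsFormChar.exists_modularForm {w : ℤ} {f : ℍ → ℂ} (hf : IsFormChar N w 1 f) :
    ∃ A : ModularForm (Gamma1 N) w, ⇑A = f := by
  refine ⟨{ toFun := f
            slash_action_eq' := ?_
            holo' := hf.mdiff
            bdd_at_cusps' := ?_ }, rfl⟩
  · rintro _ ⟨γ, hγ, rfl⟩
    have h2 : f ∣[w] γ = f := by simpa using hf.slash ⟨γ, hγ⟩
    exact h2
  · intro c hc
    have hc' : IsCusp c 𝒮ℒ := hc.mono (Subgroup.map_le_range _ _)
    rw [OnePoint.isBoundedAt_iff_forall_SL2Z hc']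
    intro γ _
    exact hf.bdd γ


/-- The Eisenstein series with character (helper22, `A/Eis.lean`) as a form with character. -/
theorem exists_isFormChar_eis [NeZero N] (χ : ↥(Gamma1 N) →* ℂˣ)
    (hχ1 : ∀ γ, ‖((χ γ : ℂˣ) : ℂ)‖ = 1)
    (hχinf : ∀ γ : ↥(Gamma1 N), (γ : SL(2, ℤ)) 1 0 = 0 → χ γ = 1)
    (k : ℤ) (hk : 3 ≤ k) (hk2 : Even k) : ∃ E : ℍ → ℂ, IsFormChar N k χ E ∧ E ≠ 0 := by
  obtain ⟨E, h1, h2, h3, h4⟩ := exists_eisenstein_character1 χ hχ1 hχinf k hk hk2
  exact ⟨E, ⟨h1, h2, h4⟩, h3⟩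

end Fermat.Agent.S48WA
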