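/-
S48 wall (W), BLOCK A, K-core, ASSEMBLY (helper43): the family `κ` over `ℂ`.

`IsTheta M n (charOf n c) cls` is the graph of an additive map `κ_n : L → Pic⁰ (FC1 M)[n]`
(`L = HomParOne M`) with kernel `n L`, compatible for varying `n` and equivariant for `T_p` and
the diamonds:  `KappaCOne M`  from the four statements
  (EX)  existence            (seat K-EXISTS),     (KER) kernel       (seat K-KERNEL),
  (HE)  Hecke equivariance   (seat K-HECKE),      (DI)  diamonds     (seat K-DIAMOND).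
-/
import Fermat.Agent.S48.W.A.K.Theta
import Fermat.Agent.S48.W.A.K.CharOf

set_option autoImplicit false
set_option linter.unusedSectionVars false
set_option linter.style.haveILetI false

noncomputable section

namespace Fermat.Agent.S48WA

open UpperHalfPlane CongruenceSubgroup ModularCurve AlgebraicCurve
open scoped MatrixGroups ModularForm Manifold
open Fermat.Agent.S23 Fermat.Agent.S48W Fermat.Agent.S48WA2 Fermat.Agent.F3I2

variable {M : ℕ} [NeZero M]

/-- (EX) every `c ∈ L` has a class. -/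
def KExists (M : ℕ) [NeZero M] : Prop :=
  ∀ n : ℕ, n ≠ 0 → ∀ c : HomParOne M, ∃ cls : Pic0 ℂ (FC1 M), IsTheta M n (charOf n c) cls

/-- (KER) if the class of `c` vanishes then `c ∈ n L`. -/
def KKernel (M : ℕ) [NeZero M] : Prop :=
  ∀ n : ℕ, n ≠ 0 → ∀ c : HomParOne M, IsTheta M n (charOf n c) 0 →
    ∃ c' : HomParOne M, c = (n : ℤ) • c'

/-- (HE) Hecke equivariance of the graph. -/
def KHecke (M : ℕ) [NeZero M] : Prop :=
  ∀ n : ℕ, n ≠ 0 → ∀ p : Nat.Primes, Nat.Coprime (p : ℕ) M →
    ∀ (c : HomParOne M) (cls : Pic0 ℂ (FC1 M)), IsTheta M n (charOf n c) cls →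
      IsTheta M n (charOf n (heckeHomOne M p c)) (heckeOneC M p cls)

/-- (DI) diamond equivariance of the graph. -/
def KDiamond (M : ℕ) [NeZero M] : Prop :=
  ∀ n : ℕ, n ≠ 0 → ∀ (d : (ZMod M)ˣ) (σ : FC1 M ≃ₐ[ℂ] FC1 M), IsDiamondC M d σ →
    ∀ (c : HomParOne M) (cls : Pic0 ℂ (FC1 M)), IsTheta M n (charOf n c) cls →
      IsTheta M n (charOf n (diamondHomOne M d c)) (σ • cls)

/-- **`κ` over `ℂ`** (A3). -/
theorem kappaCOne_of [HasDict1 M] (hEX : KExists M) (hKER : KKernel M) (hHE : KHecke M)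
    (hDI : KDiamond M) : KappaCOne M := by
  classical
  have hex : ∀ (n : ℕ) (c : HomParOne M), ∃ y : Pic0 ℂ (FC1 M),
      0 < n → IsTheta M n (charOf n c) y := by
    intro n c
    rcases Nat.eq_zero_or_pos n with h0 | hn
    · exact ⟨0, fun h => absurd h0 h.ne'⟩
    · obtain ⟨y, hy⟩ := hEX n hn.ne' c
      exact ⟨y, fun _ => hy⟩
  choose k hk using hex
  have hadd : ∀ (n : ℕ) (hn : 0 < n) (c c' : HomParOne M), k n (c + c') = k n c + k n c' := by
    intro n hn c c'
    refine (hk n (c + c') hn).unique hn.ne' ?_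
    have h := (hk n c hn).mul hn.ne' (hk n c' hn)
    rwa [← charOf_add] at h
  have hzero : ∀ (n : ℕ) (hn : 0 < n), k n 0 = 0 := by
    intro n hn
    refine (hk n 0 hn).unique hn.ne' ?_
    rw [charOf_zero]
    exact IsTheta.one M n
  let κ : (n : ℕ) → HomParOne M →+ Pic0 ℂ (FC1 M) := fun n =>
    if hn : 0 < n then
      { toFun := fun c => k n c
        map_zero' := hzero n hn
        map_add' := fun c c' => hadd n hn c c' }
    else 0
  have hκ : ∀ (n : ℕ) (hn : 0 < n) (c : HomParOne M), κ n c = k n c := by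
    intro n hn c
    simp only [κ, dif_pos hn]
    rfl
  refine ⟨κ, ?_, ?_, ?_, ?_, ?_⟩
  · intro n hn c
    rw [hκ n hn]
    exact (hk n c hn).nsmul_eq_zero
  · intro n hn c hc
    rw [hκ n hn] at hc
    have h := hk n c hn
    rw [hc] at h
    exact hKER n hn.ne' c h
  · intro n d c hn hd
    rw [hκ n hn, hκ (d * n) (Nat.mul_pos hd hn)]
    have h1 := IsTheta.of_mul (hk (d * n) c (Nat.mul_pos hd hn))
    rw [charOf_compat hd.ne'] at h1
    exact h1.unique hn.ne' (hk n c hn)
  · intro n hn p hpM c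
    rw [hκ n hn, hκ n hn]
    exact (hk n _ hn).unique hn.ne' (hHE n hn.ne' p hpM c _ (hk n c hn))
  · intro n hn d σ hσ c
    rw [hκ n hn, hκ n hn]
    exact (hk n _ hn).unique hn.ne' (hDI n hn.ne' d σ hσ c _ (hk n c hn))

end Fermat.Agent.S48WA
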