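/-
S48 wall (W), BLOCK A, K-core, seat K-FORM2 (helper71): the Hecke transfer of a character of
`Γ₁(M)` and the Hecke product of a form with character.
Port of `F3/I2/FormChar.lean` (second part) to `Γ₁(M)`, with the representatives
`β_t = heckeRepOne M p hpM t` of `A/Interfaces.lean`
(`β_∞ = [p 0; 0 1]`, `β_b = γ_p [1 b; 0 p]`, `γ_p = diamondMat M p`).

* `heckeCosetOne hpM γ t ∈ Γ₁(M)` : the element with `β_t γ = (heckeCosetOne hpM γ t) β_{γ̄ t}`;
* `heckeTransfer hpM χ`     : `(T_p χ)(γ) = ∏_t χ (heckeCosetOne hpM γ t)`;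
* `IsFormChar.heckeProd`    : `∏_t f ∣ β_t` is a form of character `T_p χ`;
* `heckeProdOne_eq`         : the product in the shape of `DictD3One`.
-/
import Fermat.Agent.S48.W.A.K.Theta
import Fermat.Agent.S48.W.A.LatticeCoset
import Fermat.Agent.F3.I2.Kappa.Hecke

set_option autoImplicit false
set_option linter.unusedSectionVars false
set_option linter.unusedVariables false
set_option linter.style.haveILetI false

noncomputable section

namespace Fermat.Agent.S48WA

open UpperHalfPlane CongruenceSubgroup Filter Topology Matrix.SpecialLinearGroup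
open scoped MatrixGroups ModularForm Manifold
open P2MW.S_ModularForm_heckeT_slash_eq_self_of_mem_Gamma0.ModularForm.HeckeSlashInvariance
open Fermat.Agent.S23 Fermat.Agent.S48W Fermat.Agent.S48WA2 Fermat.Agent.F3I2

variable {M : ℕ} [NeZero M] {p : ℕ} [Fact p.Prime]

/-! ### the Hecke transfer of a character -/

/-- The Hecke transfer of a character: `(T_p χ)(γ) = ∏_t χ(γ_t)`, `β_t γ = γ_t β_{γ̄ t}`. -/
def heckeTransfer (hpM : Nat.Coprime p M) (χ : ↥(Gamma1 M) →* ℂˣ) : ↥(Gamma1 M) →* ℂˣ where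
  toFun γ := ∏ x : OnePoint (ZMod p), χ (heckeCosetOne hpM γ x)
  map_one' := by
    simp [heckeCosetOne_one]
  map_mul' := by
    intro γ δ
    have hperm : ∏ x : OnePoint (ZMod p),
        χ (heckeCosetOne hpM δ (redMatrix p ((γ : Gamma1 M) : SL(2, ℤ)) • x)) =
        ∏ x : OnePoint (ZMod p), χ (heckeCosetOne hpM δ x) :=
      Equiv.prod_comp (MulAction.toPerm (redMatrix p ((γ : Gamma1 M) : SL(2, ℤ))))
        (fun x => χ (heckeCosetOne hpM δ x))
    rw [← hperm, ← Finset.prod_mul_distrib]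
    refine Finset.prod_congr rfl fun x _ => ?_
    rw [heckeCosetOne_mul, map_mul]

theorem heckeTransfer_apply (hpM : Nat.Coprime p M) (χ : ↥(Gamma1 M) →* ℂˣ) (γ : ↥(Gamma1 M)) :
    heckeTransfer hpM χ γ = ∏ x : OnePoint (ZMod p), χ (heckeCosetOne hpM γ x) := rfl

theorem heckeTransfer_one (hpM : Nat.Coprime p M) :
    heckeTransfer hpM (1 : ↥(Gamma1 M) →* ℂˣ) = 1 := by
  ext γ
  simp [heckeTransfer_apply]

theorem heckeTransfer_pow_eq_one (hpM : Nat.Coprime p M) {n : ℕ}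
    {χ : ↥(Gamma1 M) →* ℂˣ} (hχ : ∀ γ, χ γ ^ n = 1) (γ : ↥(Gamma1 M)) :
    heckeTransfer hpM χ γ ^ n = 1 := by
  rw [heckeTransfer_apply, ← Finset.prod_pow]
  exact Finset.prod_eq_one fun x _ => hχ _

/-! ### slash by the representatives -/

theorem heckeRepOne_det_pos (hpM : Nat.Coprime p M) (x : OnePoint (ZMod p)) :
    0 < (heckeRepOne M p hpM x : GL (Fin 2) ℝ).det.val := by
  obtain ⟨s, hs⟩ := heckeRepOne_eq_sl hpM x
  rw [hs, map_mul, Units.val_mul, det_mapGL, Units.val_one, one_mul]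
  exact fc_heckeRep_det_pos p x

theorem kf_smul_slash_of_det_pos {g : GL (Fin 2) ℝ} (hg : 0 < g.det.val) (w : ℤ) (c : ℂ)
    (f : ℍ → ℂ) : (c • f) ∣[w] g = c • (f ∣[w] g) := by
  rw [ModularForm.smul_slash]
  congr 1
  rw [Matrix.GeneralLinearGroup.val_det_apply] at hg
  simp [UpperHalfPlane.σ, hg]

theorem IsFormChar.slash_heckeRepOne_mul (hpM : Nat.Coprime p M) {w : ℤ}
    {χ : ↥(Gamma1 M) →* ℂˣ} {f : ℍ → ℂ} (hf : IsFormChar M w χ f) (γ : ↥(Gamma1 M))
    (x : OnePoint (ZMod p)) :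
    (f ∣[w] heckeRepOne M p hpM x) ∣[w] (γ : SL(2, ℤ))
      = ((χ (heckeCosetOne hpM γ x) : ℂˣ) : ℂ) •
        (f ∣[w] heckeRepOne M p hpM (redMatrix p (γ : SL(2, ℤ)) • x)) := by
  have h1 : (f ∣[w] heckeRepOne M p hpM x) ∣[w] (γ : SL(2, ℤ))
      = f ∣[w] (heckeRepOne M p hpM x * mapGL ℝ (γ : SL(2, ℤ))) := by
    rw [SlashAction.slash_mul]
    rfl
  rw [h1, heckeCosetOne_spec hpM γ x, SlashAction.slash_mul]
  have h2 : f ∣[w] (mapGL ℝ ((heckeCosetOne hpM γ x : ↥(Gamma1 M)) : SL(2, ℤ)))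
      = ((χ (heckeCosetOne hpM γ x) : ℂˣ) : ℂ) • f := hf.slash (heckeCosetOne hpM γ x)
  rw [h2, kf_smul_slash_of_det_pos (heckeRepOne_det_pos hpM _)]

theorem IsFormChar.bdd_slash_heckeRepOne (hpM : Nat.Coprime p M) {w : ℤ}
    {χ : ↥(Gamma1 M) →* ℂˣ} {f : ℍ → ℂ} (hf : IsFormChar M w χ f) (g : SL(2, ℤ))
    (x : OnePoint (ZMod p)) :
    IsBoundedAtImInfty ((f ∣[w] heckeRepOne M p hpM x) ∣[w] g) := by
  have hp1 : ¬ p ∣ 1 := fun h => (Fact.out : p.Prime).one_lt.ne' (Nat.dvd_one.mp h)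
  obtain ⟨g', -, hmul⟩ := heckeRep_mul (N := 1) hp1 g (by simp) x
  obtain ⟨s, hs⟩ := heckeRepOne_eq_sl hpM x
  have h1 : (f ∣[w] heckeRepOne M p hpM x) ∣[w] g
      = (f ∣[w] (s * g')) ∣[w] heckeRep p (redMatrix p g • x) := by
    have e1 : (f ∣[w] heckeRepOne M p hpM x) ∣[w] g
        = f ∣[w] (heckeRepOne M p hpM x * mapGL ℝ g) := by
      rw [SlashAction.slash_mul]
      rfl
    have e2 : f ∣[w] (s * g') = f ∣[w] (mapGL ℝ (s * g')) := rfl
    rw [e1, e2, ← SlashAction.slash_mul, hs, mul_assoc, hmul, map_mul, mul_assoc]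
  rw [h1]
  exact IsBoundedAtImInfty.slash w (fc_heckeRep_one_zero p _) (hf.bdd _)

/-- The product of the `p + 1` Hecke translates of a form with character `χ` is a form with
character `T_p χ` (weight `w * (p + 1)`). -/
theorem IsFormChar.heckeProd (hpM : Nat.Coprime p M) {w : ℤ}
    {χ : ↥(Gamma1 M) →* ℂˣ} {f : ℍ → ℂ} (hf : IsFormChar M w χ f) :
    IsFormChar M (w * (p + 1)) (heckeTransfer hpM χ)
      (fun z => ∏ i : OnePoint (ZMod p), (f ∣[w] heckeRepOne M p hpM i) z) := by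
  have e : (fun z => ∏ i : OnePoint (ZMod p), (f ∣[w] heckeRepOne M p hpM i) z)
      = ∏ i : OnePoint (ZMod p), (f ∣[w] heckeRepOne M p hpM i) := by
    funext z
    rw [Finset.prod_apply]
  have hw : w * ((p : ℤ) + 1) = w * ((Finset.univ : Finset (OnePoint (ZMod p))).card : ℤ) := by
    rw [fc_card_onePoint_zmod]
    push_cast
    ring
  rw [e, hw]
  refine ⟨fc_mdifferentiable_prod _ _ fun i _ => hf.mdiff.slash w _, fun γ => ?_, fun g => ?_⟩
  · rw [fc_prod_slash_SL2]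
    simp_rw [hf.slash_heckeRepOne_mul hpM γ]
    rw [Finset.prod_smul, heckeTransfer_apply]
    congr 1
    · push_cast
      rfl
    · exact Equiv.prod_comp (MulAction.toPerm (redMatrix p (γ : SL(2, ℤ))))
        (fun x => f ∣[w] heckeRepOne M p hpM x)
  · rw [fc_prod_slash_SL2]
    exact fc_isBoundedAtImInfty_prod _ _ fun i _ => hf.bdd_slash_heckeRepOne hpM g i

/-- The Hecke product of a nonzero function is nonzero. -/
theorem heckeProd_ne_zero (hpM : Nat.Coprime p M) {w : ℤ} {f : ℍ → ℂ} (hf : MDiff f)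
    (hf0 : f ≠ 0) :
    (fun z => ∏ i : OnePoint (ZMod p), (f ∣[w] heckeRepOne M p hpM i) z) ≠ 0 := by
  have e : (fun z => ∏ i : OnePoint (ZMod p), (f ∣[w] heckeRepOne M p hpM i) z)
      = ∏ i : OnePoint (ZMod p), (f ∣[w] heckeRepOne M p hpM i) := by
    funext z
    rw [Finset.prod_apply]
  rw [e]
  exact fc_mdiff_prod_ne_zero _ _ (fun i _ => hf.slash w _) (fun i _ => fc_slash_ne_zero hf0 w _)

/-- The Hecke product in the shape of `DictD3One` (`σ = diamondMat M p`). -/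
theorem heckeProdOne_eq (hpM : Nat.Coprime p M) (w : ℤ) (f : ℍ → ℂ) :
    (fun z => ∏ i : OnePoint (ZMod p), (f ∣[w] heckeRepOne M p hpM i) z)
      = fun z => (f ∣[w] heckeRep p (OnePoint.infty : OnePoint (ZMod p))) z *
          ∏ b : ZMod p, ((f ∣[w] diamondMat M (ZMod.unitOfCoprime p hpM)) ∣[w]
            heckeRep p (OnePoint.some b)) z := by
  funext z
  have h := Fintype.prod_option (fun i : OnePoint (ZMod p) => (f ∣[w] heckeRepOne M p hpM i) z)
  refine h.trans ?_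
  congr 1
  refine Finset.prod_congr rfl fun b _ => ?_
  have e : heckeRepOne M p hpM (OnePoint.some b)
      = mapGL ℝ (diamondMat M (ZMod.unitOfCoprime p hpM)) * heckeRep p (OnePoint.some b) := rfl
  show (f ∣[w] heckeRepOne M p hpM (OnePoint.some b)) z = _
  rw [e, SlashAction.slash_mul]
  rfl

end Fermat.Agent.S48WA
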