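/-
S48 wall (W), block A, K-core (sub-architect helper43), seat K-ROOT (helper27).

Norm description of the `q`-series Hecke operator `qSeriesHecke` (`S48/W/Hecke.lean`):
port of `F3G.heckeOperatorAlong_mk_of_zsmul_eq_div` (`F3/Galois/NormDesc.lean`) and of
`F3I2.IsRootDiv.hecke` (`F3/I2/RootClass.lean`).

For fields of `q`-series `F₀ ≤ F₁` with `F₀(q^p) ⊆ F₁`, a field `L ⊇ ℚ` and the inputs
`QSeriesInputs L h p hF`: if `n • D = div f` then `T [D] = [E]` with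
`n • E = div (Norm_{L F₁ / L F₀} (f(q^p)))`.
-/
import Mathlib
import Fermat.Agent.S48.W.A.InterfacesC
import Fermat.Agent.F3.I2.RootClass

set_option autoImplicit false
set_option linter.style.haveILetI false

noncomputable section

namespace Fermat.Agent.S48WA

open ModularCurve AlgebraicCurve Fermat.Agent.S48W Fermat.Agent.F3I2

section Generic

variable (L : Type*) [Field L] [Algebra ℚ L]
variable {F₀ F₁ : IntermediateField ℚ (LaurentSeries ℚ)}

/-- The function `T f := Norm_{L F₁ / L F₀} (f(q^p))`. -/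
def qSeriesHeckeFunL (h : F₀ ≤ F₁) (p : ℕ) [NeZero p] (hF : ∀ y ∈ F₀, qExpand ℚ p y ∈ F₁) :
    laurentBaseChange L F₀ →* laurentBaseChange L F₀ :=
  (Fermat.Agent.F3G.normAlong (qSeriesAlpha L h)).comp (qSeriesBeta L p hF : _ →* _)

variable {L}

theorem qSeriesHeckeFunL_apply (h : F₀ ≤ F₁) (p : ℕ) [NeZero p]
    (hF : ∀ y ∈ F₀, qExpand ℚ p y ∈ F₁) (f : laurentBaseChange L F₀) :
    qSeriesHeckeFunL L h p hF f =
      Fermat.Agent.F3G.normAlong (qSeriesAlpha L h) (qSeriesBeta L p hF f) :=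
  rfl

theorem qSeriesHeckeFunL_ne_zero {h : F₀ ≤ F₁} {p : ℕ} [NeZero p]
    {hF : ∀ y ∈ F₀, qExpand ℚ p y ∈ F₁} (hI : QSeriesInputs L h p hF)
    {f : laurentBaseChange L F₀} (hf : f ≠ 0) : qSeriesHeckeFunL L h p hF f ≠ 0 := by
  obtain ⟨hα, hβ, hP, hfin, hFI, hN⟩ := hI
  have hβf : qSeriesBeta L p hF f ≠ 0 := by simpa using hf
  exact Fermat.Agent.F3G.normAlong_ne_zero _ hfin hβf

/-- `qSeriesHecke` when the inputs hold. -/
theorem qSeriesHecke_eq {h : F₀ ≤ F₁} {p : ℕ} [NeZero p]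
    {hF : ∀ y ∈ F₀, qExpand ℚ p y ∈ F₁}
    (hα : (qSeriesAlpha L h).toRingHom.IsIntegral)
    (hβ : (qSeriesBeta L p hF).toRingHom.IsIntegral)
    [HasPrincipalDivisors L (laurentBaseChange L F₁)]
    (hfin : FiniteAlong L (qSeriesAlpha L h))
    (hFI : FundamentalIdentityAlong L (qSeriesBeta L p hF) hβ)
    (hN : NormFormulaAlong L (qSeriesAlpha L h) hfin) :
    qSeriesHecke L h p hF =
      Pic0.correspondence (qSeriesBeta L p hF) (qSeriesAlpha L h) hβ hα hFI hfin hN := by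
  have hI : QSeriesInputs L h p hF := ⟨hα, hβ, inferInstance, hfin, hFI, hN⟩
  rw [qSeriesHecke, dif_pos hI]

/-- **Norm description of `T`**: for a degree-zero divisor `D` with `n • D = div f`, the class
`T [D]` is represented by a degree-zero divisor `E` with `n • E = div (T f)`,
`T f = Norm_{L F₁ / L F₀} (f(q^p))`. -/
theorem qSeriesHecke_mk_of_zsmul_eq_div {h : F₀ ≤ F₁} {p : ℕ} [NeZero p]
    {hF : ∀ y ∈ F₀, qExpand ℚ p y ∈ F₁} (hI : QSeriesInputs L h p hF)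
    (D : Divisor.degZero (K := L) (F := laurentBaseChange L F₀))
    (n : ℤ) {f : laurentBaseChange L F₀} (hf : f ≠ 0)
    (hD : ∀ v, n * (D : Divisor L _) v = v.ord f) :
    ∃ E : Divisor.degZero (K := L) (F := laurentBaseChange L F₀),
      qSeriesHecke L h p hF (Pic0.mk D) = Pic0.mk E ∧
        ∀ v, n * (E : Divisor L _) v = v.ord (qSeriesHeckeFunL L h p hF f) := by
  obtain ⟨hα, hβ, hP, hfin, hFI, hN⟩ := hI
  haveI := hP
  refine ⟨Pic0.degZeroCorrespondence (qSeriesBeta L p hF) (qSeriesAlpha L h) hβ hα hFI D,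
    ?_, fun v => ?_⟩
  · rw [qSeriesHecke_eq hα hβ hfin hFI hN]
    rfl
  · exact Fermat.Agent.F3G.zsmul_correspondence_apply_eq_ord_norm _ _ hβ hα hfin hN hf n hD v

/-- `T [(1/n) div x] = [(1/n) div (Norm (x (q^p)))]`. -/
theorem isRootDiv_qSeriesHecke {h : F₀ ≤ F₁} {p : ℕ} [NeZero p]
    {hF : ∀ y ∈ F₀, qExpand ℚ p y ∈ F₁} (hI : QSeriesInputs L h p hF) {n : ℕ}
    {x : laurentBaseChange L F₀}
    {D : Divisor.degZero (K := L) (F := laurentBaseChange L F₀)}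
    (hD : IsRootDiv n x D) :
    ∃ E : Divisor.degZero (K := L) (F := laurentBaseChange L F₀),
      qSeriesHecke L h p hF (Pic0.mk D) = Pic0.mk E ∧
        IsRootDiv n (qSeriesHeckeFunL L h p hF x) E := by
  obtain ⟨E, hE, hEv⟩ := qSeriesHecke_mk_of_zsmul_eq_div hI D (n : ℤ) hD.1 hD.2
  exact ⟨E, hE, qSeriesHeckeFunL_ne_zero hI hD.1, hEv⟩

end Generic

/-! ### level `Γ₁(M)` -/

section One

variable {L : Type*} [Field L] [Algebra ℚ L] {M p : ℕ} [NeZero M] [NeZero p]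

theorem heckeFunOne_eq_qSeriesHeckeFunL :
    Fermat.Agent.S48WA2.heckeFunOne L M p =
      qSeriesHeckeFunL L (FOne_le_FOneP M p) p (fun _ hy => qExpand_mem_FOneP M p hy) :=
  rfl

theorem heckeFunOne_ne_zero
    (hI : QSeriesInputs L (FOne_le_FOneP M p) p (fun _ hy => qExpand_mem_FOneP M p hy))
    {f : laurentBaseChange L (FOne M)} (hf : f ≠ 0) :
    Fermat.Agent.S48WA2.heckeFunOne L M p f ≠ 0 :=
  qSeriesHeckeFunL_ne_zero hI hf

/-- **K-ROOT**: `T_p [(1/n) div x] = [(1/n) div (T_p x)]` at level `Γ₁(M)`, over any `L ⊇ ℚ`. -/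
theorem isRootDiv_heckeOne
    (hI : QSeriesInputs L (FOne_le_FOneP M p) p (fun _ hy => qExpand_mem_FOneP M p hy))
    {n : ℕ} {x : laurentBaseChange L (FOne M)}
    {D : Divisor.degZero (K := L) (F := laurentBaseChange L (FOne M))}
    (hD : IsRootDiv n x D) :
    ∃ E : Divisor.degZero (K := L) (F := laurentBaseChange L (FOne M)),
      qSeriesHecke L (FOne_le_FOneP M p) p (fun _ hy => qExpand_mem_FOneP M p hy) (Pic0.mk D)
          = Pic0.mk E ∧
        IsRootDiv n (Fermat.Agent.S48WA2.heckeFunOne L M p x) E :=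
  isRootDiv_qSeriesHecke hI hD

end One

/-- **K-ROOT over `ℂ`**, in terms of `heckeOneC`. -/
theorem isRootDiv_heckeOneC {M : ℕ} [NeZero M] (p : Nat.Primes)
    (hI : @HeckeInputsOneC M (p : ℕ) _ ⟨p.2.ne_zero⟩)
    {n : ℕ} {x : Fermat.Agent.S48WA2.FC1 M}
    {D : Divisor.degZero (K := ℂ) (F := Fermat.Agent.S48WA2.FC1 M)}
    (hD : IsRootDiv n x D) :
    ∃ E : Divisor.degZero (K := ℂ) (F := Fermat.Agent.S48WA2.FC1 M),
      heckeOneC M p (Pic0.mk D) = Pic0.mk E ∧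
        IsRootDiv n (@Fermat.Agent.S48WA2.heckeFunOne ℂ _ _ M (p : ℕ) _ ⟨p.2.ne_zero⟩ x) E :=
  haveI : NeZero (p : ℕ) := ⟨p.2.ne_zero⟩
  isRootDiv_heckeOne hI hD

/-- **K-ROOT over `ℚ̄`**, in terms of `heckeOne`. -/
theorem isRootDiv_heckeOneBar {M : ℕ} [NeZero M] (p : Nat.Primes)
    (hI : @HeckeInputsOne M (p : ℕ) _ ⟨p.2.ne_zero⟩)
    {n : ℕ} {x : FOneBar M}
    {D : Divisor.degZero (K := AlgebraicClosure ℚ) (F := FOneBar M)}
    (hD : IsRootDiv n x D) :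
    ∃ E : Divisor.degZero (K := AlgebraicClosure ℚ) (F := FOneBar M),
      heckeOne M p (Pic0.mk D) = Pic0.mk E ∧
        IsRootDiv n (@Fermat.Agent.S48WA2.heckeFunOne (AlgebraicClosure ℚ) _ _ M (p : ℕ) _
          ⟨p.2.ne_zero⟩ x) E :=
  haveI : NeZero (p : ℕ) := ⟨p.2.ne_zero⟩
  isRootDiv_heckeOne hI hD

end Fermat.Agent.S48WA
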