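/-
S48 wall (W), BLOCK A, K-core, seat K-HECKE (helper71): Hecke equivariance of the relation
`IsTheta M n χ c` at level `Γ₁(M)`:  if `c = [(1/n) div (f^n / B^n)]` for a form `f` of character
`χ`, then `T_p c = [(1/n) div ((Hf)^n / (HB)^n)]` where `Hf = ∏_t f ∣ β_t` has character `T_p χ`
(`heckeTransfer`), and `T_p χ_{c,n} = χ_{T_p c, n}` for the characters `charOf n c`.
Port of `F3/I2/Kappa/Hecke.lean`; representatives `β_t = heckeRepOne M p hpM t`.

FINAL:  `kHecke : LatticeOne M → (∀ p ∤ M, DictD3One M p) → (∀ p ∤ M, HeckeInputsOneC M p) → KHecke M`.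
-/
import Fermat.Agent.S48.W.A.K.FormHecke
import Fermat.Agent.S48.W.A.K.RootHecke
import Fermat.Agent.S48.W.A.K.Asm
import Fermat.Agent.S48.W.A.Lattice

set_option autoImplicit false
set_option linter.unusedSectionVars false
set_option linter.unusedVariables false
set_option linter.style.haveILetI false

noncomputable section

namespace Fermat.Agent.S48WA

open UpperHalfPlane CongruenceSubgroup ModularCurve AlgebraicCurve Matrix.SpecialLinearGroup
open scoped MatrixGroups ModularForm Manifold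
open P2MW.S_ModularForm_heckeT_slash_eq_self_of_mem_Gamma0.ModularForm.HeckeSlashInvariance
open Fermat.Agent.S23 Fermat.Agent.S48W Fermat.Agent.S48WA2 Fermat.Agent.F3I2

variable {M : ℕ} [NeZero M]

theorem heckeTransfer_charOf (p : Nat.Primes) (hpM : Nat.Coprime (p : ℕ) M) (n : ℕ)
    (c : HomParOne M) :
    haveI : Fact (p : ℕ).Prime := ⟨p.2⟩
    heckeTransfer hpM (charOf n c) = charOf n (heckeHomOne M p c) := by
  haveI : Fact (p : ℕ).Prime := ⟨p.2⟩
  apply MonoidHom.ext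
  intro γ
  rw [heckeTransfer_apply, charOf_apply]
  have h := heckeHomOne_apply_lat p hpM c γ
  simp only [charOf_apply]
  rw [kappaHecke_prod_zpow]
  congr 1
  exact h.symm

/-- the Hecke product of a power is a constant times the power of the Hecke product. -/
theorem kappaHecke_heckeProdOne_pow {p : ℕ} [Fact p.Prime] (hpM : Nat.Coprime p M) (n : ℕ)
    (w : ℤ) (f : ℍ → ℂ) :
    (fun z => ∏ i : OnePoint (ZMod p), ((f ^ n) ∣[(n : ℤ) * w] heckeRepOne M p hpM i) z) =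
      (∏ i : OnePoint (ZMod p), |(heckeRepOne M p hpM i).det.val| ^ ((n : ℤ) - 1)) •
        (fun z => ∏ i : OnePoint (ZMod p), (f ∣[w] heckeRepOne M p hpM i) z) ^ n := by
  funext z
  simp only [kappaHecke_pow_slash, Pi.smul_apply, Pi.pow_apply, Complex.real_smul]
  rw [Finset.prod_mul_distrib, Finset.prod_pow]
  push_cast
  rfl

set_option maxHeartbeats 800000 in
/-- **(E')** the function-level core of Lemma E: if `x'` is the Hecke norm of `x = f^n / B^n`,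
then `x' = (Hf)^n / (HB)^n` for the Hecke products `Hf = ∏_t f ∣ β_t`, `HB = ∏_t B ∣ β_t`. -/
theorem isRatioF_heckeProd_pow {p : ℕ} [Fact p.Prime] (hpM : Nat.Coprime p M) {x x' : FC1 M}
    (hT : ∀ (w : ℤ) (A B : ModularForm (Gamma1 M) w), A ≠ 0 → IsRatio1 M x A B →
      ∀ (w' : ℤ) (A' B' : ModularForm (Gamma1 M) w'),
        (⇑A' = fun z => ∏ i : OnePoint (ZMod p), (⇑A ∣[w] heckeRepOne M p hpM i) z) →
        (⇑B' = fun z => ∏ i : OnePoint (ZMod p), (⇑B ∣[w] heckeRepOne M p hpM i) z) →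
        IsRatio1 M x' A' B') {n : ℕ} {w : ℤ} {χ : ↥(Gamma1 M) →* ℂˣ} {f B : ℍ → ℂ}
    (hf : IsFormChar M w χ f) (hB : IsFormChar M w 1 B) (hf0 : f ≠ 0) (hB0 : B ≠ 0)
    (hχn : ∀ γ, χ γ ^ n = 1) (hx : IsRatioF M x (f ^ n) (B ^ n)) :
    IsRatioF M x' ((fun z => ∏ i : OnePoint (ZMod p), (f ∣[w] heckeRepOne M p hpM i) z) ^ n)
      ((fun z => ∏ i : OnePoint (ZMod p), (B ∣[w] heckeRepOne M p hpM i) z) ^ n) := by
  have hχ' := heckeTransfer_pow_eq_one hpM hχn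
  have hHf := hf.heckeProd hpM
  have hHB : IsFormChar M (w * (p + 1)) 1
      (fun z => ∏ i : OnePoint (ZMod p), (B ∣[w] heckeRepOne M p hpM i) z) :=
    (hB.heckeProd hpM).cast rfl (heckeTransfer_one hpM)
  have hHB0 := heckeProd_ne_zero (M := M) (p := p) hpM (w := w) hB.mdiff hB0
  have h1n : ∀ γ : ↥(Gamma1 M), (1 : ↥(Gamma1 M) →* ℂˣ) γ ^ n = 1 := fun γ => by simp
  obtain ⟨A, hA⟩ := hf.pow_isMF hχn
  obtain ⟨B', hB'⟩ := hB.pow_isMF h1n
  have hB'0 : B' ≠ 0 := by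
    intro h0
    apply pow_ne_zero_fun hB0 n
    rw [← hB', h0]
    rfl
  have hA0 : A ≠ 0 := by
    intro h0
    apply pow_ne_zero_fun hf0 n
    rw [← hA, h0]
    rfl
  have hAB : IsRatio1 M x A B' := by
    refine ⟨hB'0, ?_⟩
    rw [hA, hB']
    exact hx.2.2
  -- the Hecke products of `A`, `B'` as modular forms
  have hPA : IsFormChar M ((n : ℤ) * w * (p + 1)) 1
      (fun z => ∏ i : OnePoint (ZMod p), (⇑A ∣[(n : ℤ) * w] heckeRepOne M p hpM i) z) :=
    ((isFormChar_of_modularForm A).heckeProd hpM).cast rfl (heckeTransfer_one hpM)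
  have hPB : IsFormChar M ((n : ℤ) * w * (p + 1)) 1
      (fun z => ∏ i : OnePoint (ZMod p), (⇑B' ∣[(n : ℤ) * w] heckeRepOne M p hpM i) z) :=
    ((isFormChar_of_modularForm B').heckeProd hpM).cast rfl (heckeTransfer_one hpM)
  obtain ⟨A', hA'⟩ := hPA.exists_modularForm
  obtain ⟨B'', hB''⟩ := hPB.exists_modularForm
  have hratio := IsRatio1.isRatioF (hT ((n : ℤ) * w) A B' hA0 hAB _ A' B'' hA' hB'')
  rw [hA', hB'', hA, hB', kappaHecke_heckeProdOne_pow, kappaHecke_heckeProdOne_pow] at hratio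
  refine hratio.congr (pow_ne_zero_fun hHB0 n) (hHf.pow_isMF hχ') (hHB.pow_isMF h1n) ?_
  funext z
  simp only [Pi.mul_apply, Pi.smul_apply, Pi.pow_apply, Complex.real_smul]
  ring

/-- Lemma E with an abstract Hecke norm: if `T_p [D] = [E]`, `n • E = div x'` and `x'` is the
Hecke norm of `x`, then `T_p` maps the `θ`-class of `χ` to the `θ`-class of `T_p χ`. -/
theorem IsTheta.hecke_of_heckeNormAt {p : ℕ} [Fact p.Prime] (hpM : Nat.Coprime p M) {n : ℕ}
    {χ : ↥(Gamma1 M) →* ℂˣ} {w : ℤ} {f B : ℍ → ℂ} {x x' : FC1 M}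
    {E : Divisor.degZero (K := ℂ) (F := FC1 M)}
    (hχ : ∀ γ, χ γ ^ n = 1)
    (hf : IsFormChar M w χ f) (hB : IsFormChar M w 1 B) (hf0 : f ≠ 0) (hB0 : B ≠ 0)
    (hx : IsRatioF M x (f ^ n) (B ^ n))
    (hT : ∀ (w : ℤ) (A B : ModularForm (Gamma1 M) w), A ≠ 0 → IsRatio1 M x A B →
      ∀ (w' : ℤ) (A' B' : ModularForm (Gamma1 M) w'),
        (⇑A' = fun z => ∏ i : OnePoint (ZMod p), (⇑A ∣[w] heckeRepOne M p hpM i) z) →
        (⇑B' = fun z => ∏ i : OnePoint (ZMod p), (⇑B ∣[w] heckeRepOne M p hpM i) z) →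
        IsRatio1 M x' A' B') (hE : IsRootDiv n x' E) :
    IsTheta M n (heckeTransfer hpM χ) (Pic0.mk E) :=
  ⟨heckeTransfer_pow_eq_one hpM hχ, w * (p + 1), _, _, x', E, hf.heckeProd hpM,
    (hB.heckeProd hpM).cast rfl (heckeTransfer_one hpM),
    heckeProd_ne_zero (M := M) (p := p) hpM (w := w) hf.mdiff hf0,
    heckeProd_ne_zero (M := M) (p := p) hpM (w := w) hB.mdiff hB0,
    isRatioF_heckeProd_pow hpM hT hf hB hf0 hB0 hχ hx, hE, rfl⟩

/-- the norm description `DictD3One` in terms of the Hecke product over the `β_t`. -/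
theorem dictD3One_heckeProd {p : ℕ} [Fact p.Prime] [NeZero p] (hpM : Nat.Coprime p M)
    (hD3 : DictD3One M p) (x : FC1 M) :
    ∀ (w : ℤ) (A B : ModularForm (Gamma1 M) w), A ≠ 0 → IsRatio1 M x A B →
      ∀ (w' : ℤ) (A' B' : ModularForm (Gamma1 M) w'),
        (⇑A' = fun z => ∏ i : OnePoint (ZMod p), (⇑A ∣[w] heckeRepOne M p hpM i) z) →
        (⇑B' = fun z => ∏ i : OnePoint (ZMod p), (⇑B ∣[w] heckeRepOne M p hpM i) z) →
        IsRatio1 M (heckeFunOne ℂ M p x) A' B' := by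
  intro w A B hA hAB w' A' B' hA' hB'
  obtain ⟨h0, h00⟩ := diamondMat_spec M (ZMod.unitOfCoprime p hpM)
  rw [ZMod.coe_unitOfCoprime] at h00
  rw [heckeProdOne_eq] at hA' hB'
  exact hD3 _ h0 h00 w A B x hA hAB w' A' B' hA' hB'

/-- **Lemma E** at level `Γ₁(M)`. -/
theorem IsTheta.hecke (p : Nat.Primes) (hpM : Nat.Coprime (p : ℕ) M)
    (hH : @HeckeInputsOneC M (p : ℕ) _ ⟨p.2.ne_zero⟩)
    (hD3 : @DictD3One M (p : ℕ) _ ⟨p.2.ne_zero⟩) {n : ℕ} (hn : n ≠ 0)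
    {χ : ↥(Gamma1 M) →* ℂˣ} {c : Pic0 ℂ (FC1 M)} (h : IsTheta M n χ c) :
    haveI : Fact (p : ℕ).Prime := ⟨p.2⟩
    IsTheta M n (heckeTransfer hpM χ) (heckeOneC M p c) := by
  haveI : Fact (p : ℕ).Prime := ⟨p.2⟩
  haveI : NeZero (p : ℕ) := ⟨p.2.ne_zero⟩
  obtain ⟨hχ, w, f, B, x, D, hf, hB, hf0, hB0, hr, hD, rfl⟩ := h
  obtain ⟨E, hE, hEroot⟩ := isRootDiv_heckeOneC p hH hD
  rw [hE]
  exact IsTheta.hecke_of_heckeNormAt hpM hχ hf hB hf0 hB0 hr
    (dictD3One_heckeProd hpM hD3 x) hEroot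

/-- **(HE)** Hecke equivariance of the graph of `κ`. -/
theorem kHecke (hL : LatticeOne M)
    (hD3 : ∀ p : Nat.Primes, Nat.Coprime (p : ℕ) M → @DictD3One M (p : ℕ) _ ⟨p.2.ne_zero⟩)
    (hH : ∀ p : Nat.Primes, Nat.Coprime (p : ℕ) M →
      @HeckeInputsOneC M (p : ℕ) _ ⟨p.2.ne_zero⟩) : KHecke M := by
  intro n hn p hpM c cls h
  have h1 := IsTheta.hecke p hpM (hH p hpM) (hD3 p hpM) hn h
  rw [heckeTransfer_charOf p hpM n c] at h1
  exact h1

end Fermat.Agent.S48WA
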