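/-
S48 wall (W), BLOCK A, K-core, seat K-DIAMOND (helper22): diamond equivariance of the relation
`IsTheta M n χ c`.

For `γ ∈ Γ₀(M)` (a diamond matrix of `d`) and the diamond automorphism `σ` of `FC1 M`:
* `conjChar hγ χ : g ↦ χ (γ g γ⁻¹)` (characters of `Γ₁(M)`; `Γ₀(M)` normalises `Γ₁(M)`);
* `IsTheta.diamond`: if `c = [(1/n) div (f^n / B^n)]` for a form `f` of character `χ`, then
  `σ • c = [(1/n) div ((f ∣ γ)^n / (B ∣ γ)^n)]`, and `f ∣ γ` has character `conjChar hγ χ`.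

Self-contained (only `K/Defs.lean`): the few facts on `IsFormChar` which are needed are proved
here under the names `kd_*`.
-/
import Mathlib
import Fermat.Agent.S48.W.A.K.Defs
import Fermat.Agent.S48.Neb.Group

set_option autoImplicit false

noncomputable section

namespace Fermat.Agent.S48WA

open UpperHalfPlane CongruenceSubgroup ModularCurve AlgebraicCurve Filter Topology
open scoped MatrixGroups ModularForm Manifold
open Fermat.Agent.S23 Fermat.Agent.S48W Fermat.Agent.S48WA2 Fermat.Agent.F3I2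

variable {M : ℕ}

/-! ### conjugation by `Γ₀(M)` on `Γ₁(M)` -/

/-- `g ↦ γ g γ⁻¹` on `Γ₁(M)`, for `γ ∈ Γ₀(M)`. -/
def conjG1 {γ : SL(2, ℤ)} (hγ : γ ∈ Gamma0 M) : ↥(Gamma1 M) →* ↥(Gamma1 M) where
  toFun g := ⟨γ * g * γ⁻¹, Fermat.Agent.S48.Neb.conj_mem_Gamma1 M γ g hγ g.2⟩
  map_one' := by
    apply Subtype.ext
    simp
  map_mul' a b := by
    apply Subtype.ext
    simp only [Subgroup.coe_mul]
    group

@[simp]
theorem coe_conjG1 {γ : SL(2, ℤ)} (hγ : γ ∈ Gamma0 M) (g : ↥(Gamma1 M)) :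
    ((conjG1 hγ g : ↥(Gamma1 M)) : SL(2, ℤ)) = γ * g * γ⁻¹ := rfl

/-- the conjugate character `g ↦ χ (γ g γ⁻¹)`. -/
def conjChar {γ : SL(2, ℤ)} (hγ : γ ∈ Gamma0 M) (χ : ↥(Gamma1 M) →* ℂˣ) : ↥(Gamma1 M) →* ℂˣ :=
  χ.comp (conjG1 hγ)

theorem conjChar_apply {γ : SL(2, ℤ)} (hγ : γ ∈ Gamma0 M) (χ : ↥(Gamma1 M) →* ℂˣ)
    (g : ↥(Gamma1 M)) : conjChar hγ χ g = χ (conjG1 hγ g) := rfl

theorem conjChar_one {γ : SL(2, ℤ)} (hγ : γ ∈ Gamma0 M) :
    conjChar hγ (1 : ↥(Gamma1 M) →* ℂˣ) = 1 := by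
  ext g
  simp [conjChar_apply]

theorem conjChar_pow_eq_one {γ : SL(2, ℤ)} (hγ : γ ∈ Gamma0 M) {n : ℕ}
    {χ : ↥(Gamma1 M) →* ℂˣ} (hχ : ∀ g, χ g ^ n = 1) (g : ↥(Gamma1 M)) :
    conjChar hγ χ g ^ n = 1 := hχ _

/-! ### forms with character -/

theorem kd_mul {w w' : ℤ} {χ χ' : ↥(Gamma1 M) →* ℂˣ} {f f' : ℍ → ℂ}
    (hf : IsFormChar M w χ f) (hf' : IsFormChar M w' χ' f') :
    IsFormChar M (w + w') (χ * χ') (f * f') := by
  refine ⟨hf.mdiff.mul hf'.mdiff, fun γ => ?_, fun g => ?_⟩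
  · rw [ModularForm.mul_slash_SL2, hf.slash, hf'.slash]
    funext z
    simp only [Pi.mul_apply, Pi.smul_apply, smul_eq_mul, MonoidHom.mul_apply, Units.val_mul]
    ring
  · rw [ModularForm.mul_slash_SL2]
    exact (hf.bdd g).mul (hf'.bdd g)

theorem kd_one : IsFormChar M 0 1 (1 : ℍ → ℂ) := by
  refine ⟨mdifferentiable_const, fun γ => ?_, fun g => ?_⟩
  · rw [ModularForm.is_invariant_one]
    simp
  · rw [ModularForm.is_invariant_one]
    exact const_boundedAtFilter _ _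

theorem kd_pow {w : ℤ} {χ : ↥(Gamma1 M) →* ℂˣ} {f : ℍ → ℂ}
    (hf : IsFormChar M w χ f) (n : ℕ) : IsFormChar M (n * w) (χ ^ n) (f ^ n) := by
  induction n with
  | zero =>
    have e : ((0 : ℕ) : ℤ) * w = 0 := by simp
    rw [e, pow_zero χ, pow_zero f]
    exact kd_one
  | succ n ih =>
    have e : ((n + 1 : ℕ) : ℤ) * w = n * w + w := by push_cast; ring
    rw [e, pow_succ χ, pow_succ f]
    exact kd_mul ih hf

/-- A form with trivial character is (the function underlying) a modular form on `Γ₁(M)`. -/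
theorem kd_exists_modularForm {w : ℤ} {f : ℍ → ℂ} (hf : IsFormChar M w 1 f) :
    ∃ A : ModularForm (Gamma1 M) w, ⇑A = f := by
  refine ⟨{ toFun := f
            slash_action_eq' := ?_
            holo' := hf.mdiff
            bdd_at_cusps' := ?_ }, rfl⟩
  · rintro _ ⟨γ, hγ, rfl⟩
    have h2 : f ∣[w] γ = f := by simpa using hf.slash ⟨γ, hγ⟩
    exact h2
  · intro c hc
    have hc' : IsCusp c 𝒮ℒ := hc.mono (Subgroup.map_le_range _ _)
    rw [OnePoint.isBoundedAt_iff_forall_SL2Z hc']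
    intro γ _
    exact hf.bdd γ

/-- the `n`-th power of a form whose character has order dividing `n` is a modular form. -/
theorem kd_pow_modularForm {w : ℤ} {χ : ↥(Gamma1 M) →* ℂˣ} {f : ℍ → ℂ}
    (hf : IsFormChar M w χ f) {n : ℕ} (hχ : ∀ γ, χ γ ^ n = 1) :
    ∃ A : ModularForm (Gamma1 M) (n * w), ⇑A = f ^ n := by
  have h := kd_pow hf n
  have h1 : χ ^ n = 1 := by
    ext γ
    simpa using congrArg Units.val (hχ γ)
  rw [h1] at h
  exact kd_exists_modularForm h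

/-- the slash of a power (`SL(2,ℤ)`). -/
theorem kd_pow_slash (n : ℕ) (w : ℤ) (f : ℍ → ℂ) (γ : SL(2, ℤ)) :
    (f ^ n) ∣[(n : ℤ) * w] γ = (f ∣[w] γ) ^ n := by
  induction n with
  | zero =>
    have e : ((0 : ℕ) : ℤ) * w = 0 := by simp
    rw [e, pow_zero, pow_zero]
    exact ModularForm.is_invariant_one γ
  | succ n ih =>
    have e : ((n + 1 : ℕ) : ℤ) * w = n * w + w := by push_cast; ring
    rw [e, pow_succ, pow_succ, ModularForm.mul_slash_SL2, ih]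

/-- slashing with `γ ∈ Γ₀(M)` conjugates the character. -/
theorem kd_slash_conj {w : ℤ} {χ : ↥(Gamma1 M) →* ℂˣ} {f : ℍ → ℂ}
    (hf : IsFormChar M w χ f) {γ : SL(2, ℤ)} (hγ : γ ∈ Gamma0 M) :
    IsFormChar M w (conjChar hγ χ) (f ∣[w] γ) := by
  refine ⟨hf.mdiff.slash w _, fun g => ?_, fun g => ?_⟩
  · have e : (f ∣[w] γ) ∣[w] (g : SL(2, ℤ)) = (f ∣[w] (γ * g * γ⁻¹)) ∣[w] γ := by
      rw [← SlashAction.slash_mul, ← SlashAction.slash_mul]
      congr 1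
      group
    have h := hf.slash (conjG1 hγ g)
    rw [coe_conjG1] at h
    rw [e, h, ModularForm.SL_smul_slash]
    rfl
  · rw [← SlashAction.slash_mul]
    exact hf.bdd (γ * g)

theorem kd_slash_ne_zero {w : ℤ} {f : ℍ → ℂ} (hf : f ≠ 0) (γ : SL(2, ℤ)) : f ∣[w] γ ≠ 0 := by
  intro h
  apply hf
  have e : f = (f ∣[w] γ) ∣[w] γ⁻¹ := by
    rw [← SlashAction.slash_mul, mul_inv_cancel, SlashAction.slash_one]
  rw [e, h]
  exact SlashAction.zero_slash _ _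

/-! ### the divisor -/

section Divisor

variable {K F : Type*} [Field K] [Field F] [Algebra K F]

/-- `n • D = div x` is transported by an automorphism. -/
theorem kd_isRootDiv_smul {n : ℕ} {x : F} {D : Divisor.degZero (K := K) (F := F)}
    (h : IsRootDiv n x D) (σ : F ≃ₐ[K] F) : IsRootDiv n (σ x) (Pic0.degZeroSMulHom σ D) := by
  refine ⟨fun h0 => h.1 ?_, fun v => ?_⟩
  · exact (map_eq_zero_iff σ σ.injective).1 h0
  · rw [Pic0.coe_degZeroSMulHom, Divisor.smul_apply, h.2 (σ⁻¹ • v)]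
    have h1 := Place.ord_smul σ (σ⁻¹ • v) x
    rw [smul_inv_smul] at h1
    exact h1.symm

end Divisor

/-! ### the diamond -/

variable [NeZero M]

/-- **K-DIAMOND**: the diamond automorphism `σ` of `d` maps the `θ`-class of `χ` to the `θ`-class
of the conjugate character `g ↦ χ (γ g γ⁻¹)`, `γ` a diamond matrix of `d`. -/
theorem IsTheta.diamond (hD3 : DictD3Diamond M) {d : (ZMod M)ˣ} {γ : SL(2, ℤ)}
    (hγ : IsDiamondMat M d γ) {σ : FC1 M ≃ₐ[ℂ] FC1 M} (hσ : IsDiamondC M d σ) {n : ℕ}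
    {χ : ↥(Gamma1 M) →* ℂˣ} {c : Pic0 ℂ (FC1 M)} (h : IsTheta M n χ c) :
    IsTheta M n (conjChar hγ.1 χ) (σ • c) := by
  obtain ⟨hχ, w, f, B, x, D, hf, hB, hf0, hB0, hr, hD, rfl⟩ := h
  have h1n : ∀ g : ↥(Gamma1 M), (1 : ↥(Gamma1 M) →* ℂˣ) g ^ n = 1 := fun g => by simp
  have hχ' := conjChar_pow_eq_one hγ.1 hχ
  have hf' := kd_slash_conj hf hγ.1
  have hB' : IsFormChar M w 1 (B ∣[w] γ) := by
    have := kd_slash_conj hB hγ.1
    rwa [conjChar_one] at this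
  -- the modular forms `f^n`, `B^n` and their slashes
  obtain ⟨A, hA⟩ := kd_pow_modularForm hf hχ
  obtain ⟨B₁, hB₁⟩ := kd_pow_modularForm hB h1n
  obtain ⟨A', hA'⟩ := kd_pow_modularForm hf' hχ'
  obtain ⟨B₁', hB₁'⟩ := kd_pow_modularForm hB' h1n
  have hB₁0 : B₁ ≠ 0 := by
    intro h0
    apply hr.1
    rw [← hB₁, h0]
    rfl
  have hAB : IsRatio1 M x A B₁ := by
    refine ⟨hB₁0, ?_⟩
    rw [hA, hB₁]
    exact hr.2.2
  have hA'' : ⇑A' = ⇑A ∣[(n : ℤ) * w] γ := by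
    rw [hA', hA, kd_pow_slash]
  have hB'' : ⇑B₁' = ⇑B₁ ∣[(n : ℤ) * w] γ := by
    rw [hB₁', hB₁, kd_pow_slash]
  have hratio := hD3 d σ hσ γ hγ.1 hγ.2 ((n : ℤ) * w) A B₁ x hAB A' B₁' hA'' hB''
  refine ⟨hχ', w, f ∣[w] γ, B ∣[w] γ, σ x, Pic0.degZeroSMulHom σ D, hf', hB',
    kd_slash_ne_zero hf0 γ, kd_slash_ne_zero hB0 γ, ?_, kd_isRootDiv_smul hD σ,
    (Pic0.smul_mk σ D).symm⟩
  refine ⟨?_, ⟨(n : ℤ) * w, ⟨A', hA'⟩, ⟨B₁', hB₁'⟩⟩, ?_⟩
  · intro h0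
    apply hratio.1
    ext τ
    have := congrFun h0 τ
    rw [← hB₁'] at this
    exact this
  · rw [← hA', ← hB₁']
    exact hratio.2

end Fermat.Agent.S48WA
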