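/-
S48 wall (W), BLOCK A, K-core, seat K-DIAMOND, final target (helper22):
`kDiamond : LatticeOne M → DictD3Diamond M → KDiamond M`.
-/
import Fermat.Agent.S48.W.A.K.Diamond
import Fermat.Agent.S48.W.A.K.Asm

set_option autoImplicit false

noncomputable section

namespace Fermat.Agent.S48WA

open UpperHalfPlane CongruenceSubgroup ModularCurve AlgebraicCurve
open scoped MatrixGroups ModularForm Manifold
open Fermat.Agent.S23 Fermat.Agent.S48W Fermat.Agent.S48WA2 Fermat.Agent.F3I2

variable {M : ℕ} [NeZero M]

/-- the conjugate of the character of `c` is the character of `δ_d c`. -/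
theorem conjChar_charOf (hL : LatticeOne M) {d : (ZMod M)ˣ} {γ : SL(2, ℤ)}
    (hγ : IsDiamondMat M d γ) (n : ℕ) (c : HomParOne M) :
    conjChar hγ.1 (charOf n c) = charOf n (diamondHomOne M d c) := by
  ext g
  rw [conjChar_apply, charOf_apply, charOf_apply]
  have h := isDiamondHomOne_diamondHomOne hL d c γ hγ g (conjG1 hγ.1 g)
    (by rw [coe_conjG1]; group)
  rw [h]

/-- **K-DIAMOND** (final target): the graph of `κ` is equivariant for the diamonds. -/
theorem kDiamond (hL : LatticeOne M) (hD3 : DictD3Diamond M) : KDiamond M := by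
  intro n _ d σ hσ c cls h
  have hγ := diamondMat_spec M d
  have h1 := IsTheta.diamond hD3 hγ hσ h
  rwa [conjChar_charOf hL hγ] at h1

end Fermat.Agent.S48WA
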