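/-
S48 wall (W), block A, K-core (sub-architect helper43), seat K-EXISTS (helper27).
Port of `Fermat/Agent/F3/I2/Kappa/Exists.lean` to `Γ₁(M)`: for `c ∈ HomParOne M` and `n ≠ 0` the
class `[(1/n) div ((E_χ / E_1)^n)]`, `χ = χ_{c,n}`, exists: all orders of `(E_χ / E_1)^n` at the
places of `FC1 M` are divisible by `n`.  Consumes the dictionary (`HasDict1 M`: D1b, D2a, HPD) and
the Eisenstein series with character on `Γ₁(M)` (helper22, `A/Eis.lean`).

The generic lemmas of the original (`pow_eq_one_of_fix`, `hasPeriod_slash`, `trace_conj_T_pow`,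
`slash_SL_ne_zero`, `mdiff_slash_SL`) are reused from `Fermat.Agent.F3I2`.
-/
import Mathlib
import Fermat.Agent.S48.W.A.K.Theta
import Fermat.Agent.S48.W.A.K.CharOf
import Fermat.Agent.S48.W.A.K.Asm
import Fermat.Agent.S48.W.A.Eis

set_option autoImplicit false
set_option linter.unusedVariables false
set_option linter.style.haveILetI false

noncomputable section

namespace Fermat.Agent.S48WA

open UpperHalfPlane CongruenceSubgroup Complex ModularForm ModularCurve AlgebraicCurve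
open scoped MatrixGroups ModularForm Manifold
open Fermat.Agent.S23 Fermat.Agent.S48W Fermat.Agent.S48WA2 Fermat.Agent.F3I2

variable {N : ℕ} [NeZero N]

/-! ### divisibility of the orders -/

/-- Bundled version of a ratio `x = f^n / B^n` with forms of weight `n * w`. -/
theorem exists_isRatio_pow {n : ℕ} {w : ℤ} {χ : ↥(Gamma1 N) →* ℂˣ} {f B : ℍ → ℂ}
    (hf : IsFormChar N w χ f) (hB : IsFormChar N w 1 B) (hf0 : f ≠ 0) (hB0 : B ≠ 0)
    (hχn : ∀ γ, χ γ ^ n = 1) {x : FC1 N} (hx : IsRatioF N x (f ^ n) (B ^ n)) :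
    ∃ A B' : ModularForm (Gamma1 N) ((n : ℤ) * w), ⇑A = f ^ n ∧ ⇑B' = B ^ n ∧ A ≠ 0 ∧
      IsRatio1 N x A B' := by
  obtain ⟨A, hA⟩ := hf.pow_isMF hχn
  obtain ⟨B', hB'⟩ := hB.pow_isMF (n := n) (fun γ => by simp)
  refine ⟨A, B', hA, hB', ?_, ?_, ?_⟩
  · intro h0
    apply pow_ne_zero_fun hf0 n
    rw [← hA, h0]
    rfl
  · intro h0
    apply pow_ne_zero_fun hB0 n
    rw [← hB', h0]
    rfl
  · have := hx.2.2
    rw [← hA, ← hB'] at this
    exact this

/-- **Divisibility**: if the character of `f` is trivial on torsion elements and on elements of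
trace `±2`, then every order of `x = f^n / B^n` at a place of `FC1 N` is divisible by `n`. -/
theorem dvd_ord_of_isRatioF_pow (hD2a : DictD2a1 N) {n : ℕ} (hn : n ≠ 0) {w : ℤ}
    {χ : ↥(Gamma1 N) →* ℂˣ} {f B : ℍ → ℂ}
    (hf : IsFormChar N w χ f) (hB : IsFormChar N w 1 B) (hf0 : f ≠ 0) (hB0 : B ≠ 0)
    (hχn : ∀ γ, χ γ ^ n = 1)
    (hχtor : ∀ (γ : ↥(Gamma1 N)) (m : ℕ), m ≠ 0 → γ ^ m = 1 → χ γ = 1)
    (hχpar : ∀ γ : ↥(Gamma1 N),
      ((γ : SL(2, ℤ)) : Matrix (Fin 2) (Fin 2) ℤ).trace ^ 2 = 4 → χ γ = 1)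
    {x : FC1 N} (hx : IsRatioF N x (f ^ n) (B ^ n)) (v : Place ℂ (FC1 N)) :
    (n : ℤ) ∣ v.ord x := by
  obtain ⟨A, B', hA, hB', hA0, hAB⟩ := exists_isRatio_pow hf hB hf0 hB0 hχn hx
  rcases hD2a v with ⟨τ, e, he, ⟨γ₀, hγ₀, hfix, hprim⟩, hchart⟩ | ⟨g, h, e, hh, he, hmem, hchart⟩
  · -- a point of `ℍ`
    have h1 := hchart _ A B' x hA0 hAB
    rw [hA, hB', ordAt_pow hf.mdiff hf0, ordAt_pow hB.mdiff hB0] at h1
    have hχγ₀ : χ ⟨γ₀, hγ₀⟩ = 1 := by
      refine hχtor ⟨γ₀, hγ₀⟩ (2 * e) (by omega) ?_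
      apply Subtype.ext
      simpa using pow_eq_one_of_fix hfix hprim
    have hfinv : f ∣[w] γ₀ = f := by
      have := hf.slash ⟨γ₀, hγ₀⟩
      rw [hχγ₀] at this
      simpa using this
    have hBinv : B ∣[w] γ₀ = B := by
      have := hB.slash ⟨γ₀, hγ₀⟩
      simpa using this
    obtain ⟨k, hk⟩ := dvd_ordAt_sub_of_slash_invariant hf.mdiff hB.mdiff hf0 hB0 hfix hprim
      hfinv hBinv
    refine ⟨k, ?_⟩
    have he' : (e : ℤ) ≠ 0 := by exact_mod_cast he.ne'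
    apply mul_left_cancel₀ he'
    rw [h1, ← mul_sub, hk]
    ring
  · -- a cusp
    have h1 := hchart _ A B' x hA0 hAB
    rw [hA, hB', pow_slash_SL2, pow_slash_SL2] at h1
    set γ' : ↥(Gamma1 N) := ⟨g * ModularGroup.T ^ h * g⁻¹, hmem⟩ with hγ'
    have hχγ' : χ γ' = 1 := hχpar γ' (trace_conj_T_pow g h)
    have hfinv : f ∣[w] (g * ModularGroup.T ^ h * g⁻¹) = f := by
      have := hf.slash γ'
      rw [hχγ'] at this
      simpa using this
    have hBinv : B ∣[w] (g * ModularGroup.T ^ h * g⁻¹) = B := by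
      have := hB.slash γ'
      simpa using this
    have hfp : HasPeriod h (f ∣[w] g) := hasPeriod_slash hfinv
    have hBp : HasPeriod h (B ∣[w] g) := hasPeriod_slash hBinv
    have hhe : 0 < h * e := Nat.mul_pos hh he
    rw [ordInf_pow hhe (mdiff_slash_SL hf.mdiff w g) (lo_hasPeriod_mul hfp e) (hf.bdd g)
        (slash_SL_ne_zero hf0 w g),
      ordInf_pow hhe (mdiff_slash_SL hB.mdiff w g) (lo_hasPeriod_mul hBp e) (hB.bdd g)
        (slash_SL_ne_zero hB0 w g),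
      ordInf_mul_period hh he (mdiff_slash_SL hf.mdiff w g) hfp (hf.bdd g)
        (slash_SL_ne_zero hf0 w g),
      ordInf_mul_period hh he (mdiff_slash_SL hB.mdiff w g) hBp (hB.bdd g)
        (slash_SL_ne_zero hB0 w g)] at h1
    refine ⟨ordInf h (f ∣[w] g) - ordInf h (B ∣[w] g), ?_⟩
    have he' : (e : ℤ) ≠ 0 := by exact_mod_cast he.ne'
    apply mul_left_cancel₀ he'
    rw [h1]
    ring

/-! ### existence of the class attached to `c ∈ HomParOne N` -/

/-- **Existence**: the class `κ_n(c) = [(1/n) div ((E_{4,χ} / E_{4,1})^n)]`, `χ = χ_{c,n}`. -/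
theorem exists_isTheta_charOf [HasDict1 N] {n : ℕ} (hn : n ≠ 0)
    (c : HomParOne N) : ∃ cls : Pic0 ℂ (FC1 N), IsTheta N n (charOf n c) cls := by
  haveI : HasPrincipalDivisors ℂ (FC1 N) := HasDict1.hpd (M := N)
  have hinf : ∀ γ : ↥(Gamma1 N), (γ : SL(2, ℤ)) 1 0 = 0 → charOf n c γ = 1 := by
    intro γ hγ
    apply charOf_eq_one_of_trace
    have hdet := (γ : SL(2, ℤ)).det_coe
    rw [Matrix.det_fin_two, hγ, mul_zero, sub_zero] at hdet
    rw [Matrix.trace_fin_two]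
    have h1 : ((γ : SL(2, ℤ)) 0 0 + (γ : SL(2, ℤ)) 1 1) ^ 2 =
        ((γ : SL(2, ℤ)) 0 0 - (γ : SL(2, ℤ)) 1 1) ^ 2 + 4 := by
      linear_combination 4 * hdet
    have h2 : (γ : SL(2, ℤ)) 0 0 = (γ : SL(2, ℤ)) 1 1 := by
      rcases Int.isUnit_iff.1 (IsUnit.of_mul_eq_one _ hdet) with h | h <;>
        · rw [h] at hdet
          rw [h]
          linarith
    rw [h1, h2]
    ring
  obtain ⟨E, hE, hE0⟩ := exists_isFormChar_eis (charOf n c) (norm_charOf n c) hinf 4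
    (by norm_num) (by decide)
  obtain ⟨E₁, hE1, hE10⟩ := exists_isFormChar_eis (N := N) (1 : ↥(Gamma1 N) →* ℂˣ)
    (fun γ => by simp) (fun γ _ => rfl) 4 (by norm_num) (by decide)
  obtain ⟨x, hx⟩ := exists_isRatioF (hE.pow_isMF (charOf_pow n c))
    (hE1.pow_isMF (n := n) (fun γ => by simp)) (pow_ne_zero_fun hE10 n)
  have hx0 : x ≠ 0 := by
    intro h0
    exact pow_ne_zero_fun hE0 n (hx.eq_zero_iff.1 h0)
  have hdiv : ∀ v : Place ℂ (FC1 N), (n : ℤ) ∣ v.ord x := fun v =>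
    dvd_ord_of_isRatioF_pow (HasDict1.d2a (M := N)) hn hE hE1 hE0 hE10 (charOf_pow n c)
      (fun γ m hm h => charOf_eq_one_of_pow_eq_one n c hm h)
      (fun γ h => charOf_eq_one_of_trace n c h) hx v
  obtain ⟨D, hD⟩ := exists_isRootDiv (Nat.pos_of_ne_zero hn) hx0 hdiv
  exact ⟨Pic0.mk D, charOf_pow n c, 4, _, _, x, D, hE, hE1, hE0, hE10, hx, hD, rfl⟩

/-- **(EX)** the final target of seat K-EXISTS (`K/Asm.lean`). -/
theorem kExists (M : ℕ) [NeZero M] [HasDict1 M] : KExists M :=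
  fun _ hn c => exists_isTheta_charOf hn c

end Fermat.Agent.S48WA
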