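/-
S48 wall (W), BLOCK A, K-core seat K-KERNEL (helper2): the kernel of the `κ`-construction at level
`Γ₁(M)`.  If the class `[(1/n) div (f^n / B^n)]` vanishes, then the character of `f` is trivial.
Literal port of `F3/I2/Kappa/Kernel.lean` (`Gamma0 N ↦ Gamma1 M`, `G0 N ↦ G1 M`, `FC N ↦ FC1 M`);
the dictionary enters through `HasDict1.const` (and `HasDict1.d1a`).  Generic lemmas
(`exists_ne_zero_of_ne_zero`, `exists_smul_of_pow_eq_pow`, `IsRootDiv.exists_of_mk_eq_zero`) are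
those of `Fermat.Agent.F3I2`.
-/
import Fermat.Agent.S48.W.A.K.Theta

set_option autoImplicit false
set_option linter.unusedSectionVars false

noncomputable section

namespace Fermat.Agent.S48WA

open UpperHalfPlane CongruenceSubgroup ModularCurve AlgebraicCurve
open scoped MatrixGroups ModularForm Manifold
open Fermat.Agent.S23 Fermat.Agent.S28.QExp
open Fermat.Agent.S48W Fermat.Agent.S48WA2 Fermat.Agent.F3I2

variable {N : ℕ} [NeZero N]

/-- A nonzero function has at most one character. -/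
theorem IsFormChar.char_unique {w w' : ℤ} {χ χ' : ↥(Gamma1 N) →* ℂˣ} {F : ℍ → ℂ}
    (h : IsFormChar N w χ F) (h' : IsFormChar N w' χ' F) (hw : w = w') (hF : F ≠ 0) :
    χ = χ' := by
  subst hw
  obtain ⟨τ, hτ⟩ := exists_ne_zero_of_ne_zero hF
  ext γ
  have h1 := congrFun ((h.slash γ).symm.trans (h'.slash γ)) τ
  simp only [Pi.smul_apply, smul_eq_mul] at h1
  exact mul_right_cancel₀ hτ h1

theorem qLaurent_smul_of_isMF {w : ℤ} {F : ℍ → ℂ} (hF : IsMF (G1 N) w F) (a : ℂ) :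
    qLaurent (a • F) = a • qLaurent F :=
  (hasQ_of_isMF (hF.smul a)).unique ((hasQ_of_isMF hF).smul a)

theorem isMF_mdiff {w : ℤ} {F : ℍ → ℂ} (hF : IsMF (G1 N) w F) : MDiff F := by
  obtain ⟨A, rfl⟩ := hF
  exact A.holo'

/-- **Kernel**: if the class attached to a character `χ` vanishes, then `χ = 1`. -/
theorem IsTheta.char_eq_one [HasDict1 N] {n : ℕ} (hn : n ≠ 0)
    {χ : ↥(Gamma1 N) →* ℂˣ} (h : IsTheta N n χ 0) : χ = 1 := by
  obtain ⟨hχ, w, f, B, x, D, hf, hB, hf0, hB0, hr, hD, hmk⟩ := h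
  obtain ⟨y, hy0, hy⟩ := hD.exists_of_mk_eq_zero hmk
  have hx0 : x ≠ 0 := hD.1
  -- `x / y^n` is a constant
  have hyn0 : y ^ n ≠ 0 := pow_ne_zero n hy0
  have hz0 : x * (y ^ n)⁻¹ ≠ 0 := mul_ne_zero hx0 (inv_ne_zero hyn0)
  have hzord : ∀ v : Place ℂ (FC1 N), v.ord (x * (y ^ n)⁻¹) = 0 := by
    intro v
    rw [Place.ord_mul v hx0 (inv_ne_zero hyn0), Place.ord_inv, hy v]
    have : v.ord (y ^ n) = (n : ℤ) * v.ord y := by
      have := Place.ord_zpow v y (n : ℤ)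
      rwa [zpow_natCast] at this
    rw [this]
    ring
  obtain ⟨a, ha⟩ := (HasDict1.const : DictConst1 N) _ hz0 hzord
  have hxa : x = algebraMap ℂ (FC1 N) a * y ^ n := by
    rw [← ha, mul_assoc, inv_mul_cancel₀ hyn0, mul_one]
  have ha0 : a ≠ 0 := by
    rintro rfl
    rw [map_zero, zero_mul] at hxa
    exact hx0 hxa
  -- `y` as a ratio
  obtain ⟨f₁, g₁, hf₁0, hy1⟩ := exists_isRatioF_of_ne_zero hy0
  have hyn := IsRatioF.one_pow n hy1
  obtain ⟨hg₁n0, ⟨W, hf₁m, hg₁m⟩, hq⟩ := hyn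
  obtain ⟨hg₁0, ⟨w₁, hf₁w, hg₁w⟩, -⟩ := hy1
  have hxr : IsRatioF N x (a • f₁ ^ n) (g₁ ^ n) := by
    refine ⟨hg₁n0, ⟨W, hf₁m.smul a, hg₁m⟩, ?_⟩
    rw [qLaurent_smul_of_isMF hf₁m, hq, hxa]
    push_cast
    rw [← HahnSeries.C_mul_eq_smul]
    have hCa : algebraMap ℂ (LaurentSeries ℂ) a = HahnSeries.C a := by
      rw [ModularCurve.algebraMap_laurentSeries_eq_single]
      rfl
    rw [hCa]
    ring
  have hcross := hr.cross hxr
  -- an `n`-th root of `a`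
  obtain ⟨b, hb⟩ := IsAlgClosed.exists_pow_nat_eq a (Nat.pos_of_ne_zero hn)
  have hb0 : b ≠ 0 := by
    rintro rfl
    rw [zero_pow hn] at hb
    exact ha0 hb.symm
  have hpow : ∀ τ, (f * g₁) τ ^ n = (b • (f₁ * B)) τ ^ n := by
    intro τ
    have := congrFun hcross τ
    simp only [Pi.mul_apply, Pi.pow_apply, Pi.smul_apply, smul_eq_mul] at this ⊢
    rw [mul_pow, this, mul_pow, mul_pow, hb]
    ring
  have hBm : IsMF (G1 N) w B := hB.isMF
  have hf₁B : IsMF (G1 N) (w₁ + w) (f₁ * B) := hf₁w.mul hBm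
  have hf₁B0 : f₁ * B ≠ 0 := isMF_mul_ne_zero hf₁w hBm hf₁0 hB0
  have hbf₁B0 : b • (f₁ * B) ≠ 0 := by
    obtain ⟨τ, hτ⟩ := exists_ne_zero_of_ne_zero hf₁B0
    intro h0
    have := congrFun h0 τ
    simp only [Pi.smul_apply, smul_eq_mul, Pi.zero_apply] at this
    exact (mul_ne_zero hb0 hτ) this
  have hfg₁ : IsFormChar N (w + w₁) (χ * 1) (f * g₁) := hf.mul (isFormChar_of_isMF hg₁w)
  obtain ⟨ζ, hζn, hζ⟩ :=
    exists_smul_of_pow_eq_pow hfg₁.mdiff (isMF_mdiff (hf₁B.smul b)) hbf₁B0 hn hpow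
  have hfg₁' : IsFormChar N (w₁ + w) 1 (f * g₁) := by
    have h1 : f * g₁ = ζ • (b • (f₁ * B)) := by
      ext τ
      rw [hζ τ]
      rfl
    rw [h1]
    exact isFormChar_of_isMF ((hf₁B.smul b).smul ζ)
  have hfg₁0 : f * g₁ ≠ 0 := by
    intro h0
    obtain ⟨τ, hτ⟩ := exists_ne_zero_of_ne_zero hbf₁B0
    have h1 := hpow τ
    rw [h0] at h1
    simp only [Pi.zero_apply, zero_pow hn] at h1
    exact hτ (pow_eq_zero_iff hn |>.1 h1.symm)
  have := hfg₁.char_unique hfg₁' (add_comm w w₁) hfg₁0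
  exact (mul_one χ).symm.trans this

end Fermat.Agent.S48WA
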