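/-
S48 wall (W), BLOCK A, K-core seat K-KERNEL, final target (helper2): `kKernel : KKernel M`.
If the class of `c ∈ L = HomParOne M` (at level `n`) vanishes, then `c ∈ n L`:
`IsTheta.char_eq_one` (`K/Kernel.lean`) + `exists_eq_smul_of_charOf_eq_one` (`K/CharOf.lean`).
-/
import Fermat.Agent.S48.W.A.K.Asm
import Fermat.Agent.S48.W.A.K.Kernel

set_option autoImplicit false
set_option linter.unusedSectionVars false

noncomputable section

namespace Fermat.Agent.S48WA

open UpperHalfPlane CongruenceSubgroup ModularCurve AlgebraicCurve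
open scoped MatrixGroups ModularForm Manifold
open Fermat.Agent.S23 Fermat.Agent.S48W Fermat.Agent.S48WA2 Fermat.Agent.F3I2

variable {M : ℕ} [NeZero M]

/-- **(KER)** the kernel of `κ_n` is `n L`. -/
theorem kKernel [HasDict1 M] : KKernel M := by
  intro n hn c h
  exact exists_eq_smul_of_charOf_eq_one hn c (h.char_eq_one hn)

end Fermat.Agent.S48WA
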